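import Mathlib
import Fermat.Prelude.Thm_IsLocalRing_isAdicComplete_of_module_finite
import Fermat.Prelude.Thm_Algebra_finite_maximalSpectrum_and_bijective_localization_of_module_finite

/-!
# Row S59, layer G4, piece POINTS — part 1 (helper109)

The integral closure of a complete discrete valuation ring `𝒪` of characteristic zero in a finite
extension `L` of its fraction field `K` is again a complete discrete valuation ring, finite over
`𝒪`, with `𝒪 → integralClosure 𝒪 L` a local homomorphism.
(Port of `S31/H262/PadicDVR.lean` (helper262) from `ℤ_[p]` to a general `𝒪`.)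
-/

set_option autoImplicit false
set_option linter.unusedSectionVars false
set_option linter.style.haveILetI false

noncomputable section

namespace Fermat.Agent.S59.G4.H109

open IsLocalRing

section DVR

variable (𝒪 : Type) [CommRing 𝒪] [IsDomain 𝒪] [IsDiscreteValuationRing 𝒪]
  [IsAdicComplete (maximalIdeal 𝒪) 𝒪] [CharZero 𝒪]
variable (K : Type) [Field K] [Algebra 𝒪 K] [IsFractionRing 𝒪 K]
variable (L : Type) [Field L] [Algebra K L] [Algebra 𝒪 L] [IsScalarTower 𝒪 K L]
  [FiniteDimensional K L]

/-- The ring of integers of `L`. -/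
abbrev intRingO : Subalgebra 𝒪 L := integralClosure 𝒪 L

include 𝒪 in
theorem charZero_K : CharZero K :=
  charZero_of_injective_algebraMap (IsFractionRing.injective 𝒪 K)

include 𝒪 K in
theorem charZero_L : CharZero L :=
  haveI := charZero_K 𝒪 K
  charZero_of_injective_algebraMap (algebraMap K L).injective

include K in
theorem intRingO_isDedekindDomain : IsDedekindDomain (intRingO 𝒪 L) :=
  haveI := charZero_K 𝒪 K
  integralClosure.isDedekindDomain 𝒪 K L

include K in
theorem intRingO_moduleFinite : Module.Finite 𝒪 (intRingO 𝒪 L) :=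
  haveI := charZero_K 𝒪 K
  IsIntegralClosure.finite 𝒪 K L (intRingO 𝒪 L)

include K in
theorem intRingO_isNoetherianRing : IsNoetherianRing (intRingO 𝒪 L) :=
  haveI := charZero_K 𝒪 K
  IsIntegralClosure.isNoetherianRing 𝒪 K L (intRingO 𝒪 L)

include K in
theorem algebraMap_O_L_injective : Function.Injective (algebraMap 𝒪 L) := by
  rw [IsScalarTower.algebraMap_eq 𝒪 K L]
  exact (algebraMap K L).injective.comp (IsFractionRing.injective 𝒪 K)

include K in
theorem algebraMap_intRingO_injective : Function.Injective (algebraMap 𝒪 (intRingO 𝒪 L)) := by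
  intro a b h
  apply algebraMap_O_L_injective 𝒪 K L
  have := congrArg (fun x : intRingO 𝒪 L => (x : L)) h
  exact this

include K in
theorem intRingO_charZero : CharZero (intRingO 𝒪 L) :=
  charZero_of_injective_algebraMap (algebraMap_intRingO_injective 𝒪 K L)

include K in
/-- `𝒪 → integralClosure 𝒪 L` is a local homomorphism. -/
theorem intRingO_isLocalHom : IsLocalHom (algebraMap 𝒪 (intRingO 𝒪 L)) := by
  apply RingHom.IsIntegral.isLocalHom _ (algebraMap_intRingO_injective 𝒪 K L)
  intro x
  have hx : IsIntegral 𝒪 (x : L) := x.2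
  obtain ⟨q, hq, hq0⟩ := hx
  refine ⟨q, hq, ?_⟩
  apply Subtype.ext
  have h1 : ((Polynomial.eval₂ (algebraMap 𝒪 (intRingO 𝒪 L)) x q : intRingO 𝒪 L) : L)
      = Polynomial.eval₂ (algebraMap 𝒪 L) (x : L) q := by
    rw [← Polynomial.aeval_def, ← Polynomial.aeval_def]
    exact (Polynomial.aeval_algHom_apply (intRingO 𝒪 L).val x q).symm
  rw [h1, hq0]
  rfl

include K in
theorem intRingO_not_isField : ¬ IsField (intRingO 𝒪 L) := by
  intro hF
  obtain ⟨ϖ, hϖ⟩ := IsDiscreteValuationRing.exists_irreducible 𝒪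
  have h0 : algebraMap 𝒪 (intRingO 𝒪 L) ϖ ≠ 0 := by
    intro h
    exact hϖ.ne_zero (algebraMap_intRingO_injective 𝒪 K L (by rw [h, map_zero]))
  obtain ⟨b, hb⟩ := hF.mul_inv_cancel h0
  have hu : IsUnit (algebraMap 𝒪 (intRingO 𝒪 L) ϖ) := IsUnit.of_mul_eq_one _ hb
  haveI := intRingO_isLocalHom 𝒪 K L
  exact hϖ.not_isUnit (isUnit_of_map_unit (algebraMap 𝒪 (intRingO 𝒪 L)) ϖ hu)

include K in
/-- The ring of integers is a local ring (it is a domain, finite over the complete local ring
`𝒪`, hence it is the product of its localisations at its finitely many maximal ideals). -/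
theorem intRingO_isLocalRing : IsLocalRing (intRingO 𝒪 L) := by
  classical
  haveI := intRingO_moduleFinite 𝒪 K L
  obtain ⟨-, hbij, -, -⟩ :=
    Algebra.finite_maximalSpectrum_and_bijective_localization_of_module_finite (𝒪 := 𝒪)
      (intRingO 𝒪 L)
  -- at most one maximal ideal
  have huniq : ∀ I J : MaximalSpectrum (intRingO 𝒪 L), I = J := by
    intro I J
    by_contra hIJ
    obtain ⟨e, he⟩ := hbij.2 (Function.update
      (0 : ∀ K' : MaximalSpectrum (intRingO 𝒪 L), Localization.AtPrime K'.asIdeal) I 1)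
    have hI : algebraMap (intRingO 𝒪 L) (Localization.AtPrime I.asIdeal) e = 1 := by
      have := congrFun he I
      simpa using this
    have hJ : algebraMap (intRingO 𝒪 L) (Localization.AtPrime J.asIdeal) e = 0 := by
      have := congrFun he J
      simpa [Function.update_of_ne (Ne.symm hIJ)] using this
    have hprod : e * (1 - e) = 0 := by
      apply hbij.1
      funext K'
      simp only [RingHom.pi_apply, map_mul, map_sub, map_one, map_zero]
      by_cases hK : K' = I
      · subst hK; rw [hI]; simp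
      · have : algebraMap (intRingO 𝒪 L) (Localization.AtPrime K'.asIdeal) e = 0 := by
          have := congrFun he K'
          simpa [Function.update_of_ne hK] using this
        rw [this]; simp
    rcases mul_eq_zero.mp hprod with h0 | h1
    · rw [h0, map_zero] at hI
      exact zero_ne_one hI
    · have : e = 1 := (sub_eq_zero.mp h1).symm
      rw [this, map_one] at hJ
      exact one_ne_zero hJ
  obtain ⟨M, hM⟩ := Ideal.exists_maximal (intRingO 𝒪 L)
  refine IsLocalRing.of_unique_max_ideal ⟨M, hM, fun J hJ => ?_⟩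
  exact congrArg MaximalSpectrum.asIdeal (huniq ⟨J, hJ⟩ ⟨M, hM⟩)

include K in
theorem intRingO_isDiscreteValuationRing : IsDiscreteValuationRing (intRingO 𝒪 L) :=
  haveI := intRingO_isLocalRing 𝒪 K L
  haveI := intRingO_isNoetherianRing 𝒪 K L
  ((IsDiscreteValuationRing.TFAE (intRingO 𝒪 L) (intRingO_not_isField 𝒪 K L)).out 0 2).mpr
    (intRingO_isDedekindDomain 𝒪 K L)

include K in
theorem intRingO_isAdicComplete :
    haveI := intRingO_isLocalRing 𝒪 K L
    IsAdicComplete (maximalIdeal (intRingO 𝒪 L)) (intRingO 𝒪 L) := by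
  haveI := intRingO_isLocalRing 𝒪 K L
  haveI := intRingO_moduleFinite 𝒪 K L
  haveI := intRingO_isLocalHom 𝒪 K L
  exact IsLocalRing.isAdicComplete_of_module_finite (𝒪 := 𝒪)

include K in
theorem intRingO_finite_residueField [Finite (ResidueField 𝒪)] :
    haveI := intRingO_isLocalRing 𝒪 K L
    Finite (ResidueField (intRingO 𝒪 L)) := by
  haveI := intRingO_isLocalRing 𝒪 K L
  haveI := intRingO_moduleFinite 𝒪 K L
  haveI := intRingO_isLocalHom 𝒪 K L
  exact Module.finite_of_finite (ResidueField 𝒪)

include K in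
/-- Powers of the maximal ideal are cofinal with the powers of any nonzero element. -/
theorem exists_maximalIdeal_pow_le_span_pow (ϖ : 𝒪) (hϖ : ϖ ≠ 0) (n : ℕ) :
    haveI := intRingO_isLocalRing 𝒪 K L
    ∃ m : ℕ, maximalIdeal (intRingO 𝒪 L) ^ m
      ≤ Ideal.span {algebraMap 𝒪 (intRingO 𝒪 L) ϖ ^ n} := by
  haveI := intRingO_isLocalRing 𝒪 K L
  haveI := intRingO_isNoetherianRing 𝒪 K L
  have hp0 : algebraMap 𝒪 (intRingO 𝒪 L) ϖ ≠ 0 := by
    intro h
    exact hϖ (algebraMap_intRingO_injective 𝒪 K L (by rw [h, map_zero]))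
  have hne : Ideal.span {algebraMap 𝒪 (intRingO 𝒪 L) ϖ} ≠ ⊥ := by
    rw [Ne, Ideal.span_singleton_eq_bot]
    exact hp0
  have hall : ∀ I : Ideal (intRingO 𝒪 L), I ≠ ⊥ → ∃ n, I = maximalIdeal (intRingO 𝒪 L) ^ n :=
    ((IsDiscreteValuationRing.TFAE (intRingO 𝒪 L) (intRingO_not_isField 𝒪 K L)).out 0 6).mp
      (intRingO_isDiscreteValuationRing 𝒪 K L)
  obtain ⟨e, he⟩ := hall _ hne
  refine ⟨e * n, ?_⟩
  rw [pow_mul, ← he, Ideal.span_singleton_pow]

end DVR

end Fermat.Agent.S59.G4.H109
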