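import Fermat.Agent.S59.G4.H109.PointsStrict
import Fermat.Agent.S59.G4.Spec

/-!
# Row S59, layer G4, piece POINTS — part 3, assembly (helper109)

`points : PointsStatement`.  For a reduced local ring `T`, finite free over a complete DVR `𝒪` of
characteristic zero with fraction field `K`, the algebra `E = K ⊗[𝒪] T` is a finite reduced
`K`-algebra, hence (Artinian decomposition) the product of the finitely many fields `L_J = E ⧸ J`,
finite over `K`.  The rings of integers `integralClosure 𝒪 L_J` are complete discrete valuation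
rings of characteristic zero with finite residue field (`PointsDVR.lean`), the points
`T → integralClosure 𝒪 L_J` are jointly strict (`PointsStrict.lean`) and local homomorphisms
(integrality of `T` over `𝒪`).
(Port of `S31/H262/Points.lean` (helper262) from `ℤ_[p]` to a general `𝒪`.)
-/

set_option autoImplicit false
set_option linter.unusedSectionVars false
set_option linter.style.haveILetI false

noncomputable section

namespace Fermat.Agent.S59.G4.H109

open scoped TensorProduct
open IsLocalRing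

section Local

/-- A ring homomorphism of local rings over a local base `𝒪`, with integral source and with
target a local `𝒪`-algebra, is local. -/
theorem isLocalHom_of_isIntegral (𝒪 T O : Type) [CommRing 𝒪] [IsLocalRing 𝒪] [CommRing T]
    [IsLocalRing T] [Algebra 𝒪 T] [Algebra.IsIntegral 𝒪 T] [CommRing O] [IsLocalRing O]
    [Algebra 𝒪 O] [IsLocalHom (algebraMap 𝒪 O)] (χ : T →+* O)
    (hχ : ∀ a, χ (algebraMap 𝒪 T a) = algebraMap 𝒪 O a) : IsLocalHom χ := by
  set q : Ideal T := (maximalIdeal O).comap χ with hq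
  haveI : q.IsPrime := Ideal.comap_isPrime χ _
  have hcomap : q.comap (algebraMap 𝒪 T) = maximalIdeal 𝒪 := by
    have h1 : q.comap (algebraMap 𝒪 T) = (maximalIdeal O).comap (algebraMap 𝒪 O) := by
      ext a
      simp only [hq, Ideal.mem_comap, hχ]
    rw [h1]
    exact IsLocalRing.maximalIdeal_comap (algebraMap 𝒪 O)
  have hmax : q.IsMaximal := by
    apply Ideal.isMaximal_of_isIntegral_of_isMaximal_comap (R := 𝒪) q
    rw [hcomap]
    exact IsLocalRing.maximalIdeal.isMaximal 𝒪
  have hqm : q = maximalIdeal T := IsLocalRing.eq_maximalIdeal hmax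
  exact ((IsLocalRing.local_hom_TFAE χ).out 0 4).mpr hqm

/-- The structure map of a local integral algebra over a local ring is local. -/
theorem algebraMap_mem_maximalIdeal (𝒪 T : Type) [CommRing 𝒪] [IsLocalRing 𝒪] [CommRing T]
    [IsLocalRing T] [Algebra 𝒪 T] [Algebra.IsIntegral 𝒪 T] (a : 𝒪) (ha : a ∈ maximalIdeal 𝒪) :
    algebraMap 𝒪 T a ∈ maximalIdeal T := by
  have hmax : ((maximalIdeal T).comap (algebraMap 𝒪 T)).IsMaximal :=
    Ideal.isMaximal_comap_of_isIntegral_of_isMaximal (R := 𝒪) (maximalIdeal T)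
  have h : (maximalIdeal T).comap (algebraMap 𝒪 T) = maximalIdeal 𝒪 :=
    IsLocalRing.eq_maximalIdeal hmax
  rw [← h] at ha
  exact ha

end Local

section Points

variable (p : ℕ)
variable (𝒪 : Type) [CommRing 𝒪] [IsDomain 𝒪] [IsDiscreteValuationRing 𝒪]
  [IsAdicComplete (maximalIdeal 𝒪) 𝒪] [Finite (ResidueField 𝒪)] [CharZero 𝒪]
variable (K : Type) [Field K] [Algebra 𝒪 K] [IsFractionRing 𝒪 K]
variable (T : Type) [CommRing T] [Algebra 𝒪 T] [Module.Finite 𝒪 T] [Module.Free 𝒪 T]

attribute [local instance] IsArtinianRing.fieldOfSubtypeIsMaximal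

theorem isArtinianRing_tensorO : IsArtinianRing (K ⊗[𝒪] T) :=
  isArtinian_of_tower K inferInstance

attribute [local instance] Algebra.TensorProduct.rightAlgebra in
theorem isReduced_tensorO [IsReduced T] : IsReduced (K ⊗[𝒪] T) := by
  haveI : IsLocalization (Algebra.algebraMapSubmonoid T (nonZeroDivisors 𝒪)) (K ⊗[𝒪] T) :=
    IsLocalization.tensorRight (R := 𝒪) (S := T) K (nonZeroDivisors 𝒪)
  exact isReduced_localizationPreserves
    (Algebra.algebraMapSubmonoid T (nonZeroDivisors 𝒪)) (K ⊗[𝒪] T) inferInstance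

include K in
/-- **Strict points** (unbundled form, generic fraction field). -/
theorem exists_points_aux [IsLocalRing T] [IsReduced T] (hp𝒪 : (p : 𝒪) ∈ maximalIdeal 𝒪) :
    ∃ (ι : Type) (_ : Finite ι) (O : ι → Type) (_ : ∀ j, CommRing (O j))
      (_ : ∀ j, IsDomain (O j)) (_ : ∀ j, IsDiscreteValuationRing (O j))
      (_ : ∀ j, IsAdicComplete (maximalIdeal (O j)) (O j))
      (_ : ∀ j, Finite (ResidueField (O j))) (_ : ∀ j, CharZero (O j))
      (χ : ∀ j, T →+* O j),
      (∀ j, ((p : ℕ) : O j) ∈ maximalIdeal (O j)) ∧ (∀ j, IsLocalHom (χ j)) ∧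
      ∀ n : ℕ, ∃ m : ℕ, ∀ t : T, (∀ j, χ j t ∈ maximalIdeal (O j) ^ m) →
        t ∈ maximalIdeal T ^ n := by
  haveI := isArtinianRing_tensorO 𝒪 K T
  haveI := isReduced_tensorO 𝒪 K T
  let E := K ⊗[𝒪] T
  let L : MaximalSpectrum E → Type := fun J => E ⧸ J.asIdeal
  let Φ : E →ₐ[K] (∀ J, L J) := ((IsArtinianRing.equivPi E).restrictScalars K).toAlgHom
  have hΦ : Function.Injective Φ := ((IsArtinianRing.equivPi E).restrictScalars K).injective
  haveI hloc : ∀ J, IsLocalRing (intRingO 𝒪 (L J)) := fun J => intRingO_isLocalRing 𝒪 K (L J)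
  haveI hlh : ∀ J, IsLocalHom (algebraMap 𝒪 (intRingO 𝒪 (L J))) :=
    fun J => intRingO_isLocalHom 𝒪 K (L J)
  obtain ⟨ϖ, hϖ⟩ := IsDiscreteValuationRing.exists_irreducible 𝒪
  refine ⟨MaximalSpectrum E, inferInstance, fun J => intRingO 𝒪 (L J), fun J => inferInstance,
    fun J => inferInstance, fun J => intRingO_isDiscreteValuationRing 𝒪 K (L J),
    fun J => intRingO_isAdicComplete 𝒪 K (L J),
    fun J => intRingO_finite_residueField 𝒪 K (L J),
    fun J => intRingO_charZero 𝒪 K (L J), fun J => pt 𝒪 K T L Φ J, ?_, ?_, ?_⟩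
  · intro J
    have h1 : ((p : ℕ) : intRingO 𝒪 (L J)) = algebraMap 𝒪 (intRingO 𝒪 (L J)) (p : 𝒪) :=
      (map_natCast _ p).symm
    rw [h1]
    exact algebraMap_mem_maximalIdeal 𝒪 (intRingO 𝒪 (L J)) _ hp𝒪
  · intro J
    exact isLocalHom_of_isIntegral 𝒪 T (intRingO 𝒪 (L J)) (pt 𝒪 K T L Φ J)
      (pt_algebraMap 𝒪 K T L Φ J)
  · intro n
    obtain ⟨m, hm⟩ := strict_of_injective hΦ hϖ n
    refine ⟨m, fun t ht => ?_⟩
    have h1 : t ∈ Ideal.span {algebraMap 𝒪 T ϖ ^ n} := hm t ht
    have h2 : Ideal.span {algebraMap 𝒪 T ϖ ^ n} ≤ maximalIdeal T ^ n := by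
      rw [Ideal.span_le, Set.singleton_subset_iff]
      exact Ideal.pow_mem_pow (algebraMap_mem_maximalIdeal 𝒪 T ϖ
        ((IsLocalRing.mem_maximalIdeal _).mpr hϖ.not_isUnit)) n
    exact h2 h1

end Points

section Statement

open Fermat.Agent.S31

/-- **Piece POINTS of row S59, layer G4.** -/
theorem points : Fermat.Agent.S59.G4.PointsStatement := by
  classical
  intro p _ 𝒪 _ _ _ _ _ _ hp𝒪 T _ _ _ _ _ _
  obtain ⟨ι, hι, O, i1, i2, i3, i4, i5, i6, χ, hpm, hloc, hstrict⟩ :=
    exists_points_aux p 𝒪 (FractionRing 𝒪) T hp𝒪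
  haveI : Fintype ι := Fintype.ofFinite ι
  refine ⟨(Finset.univ : Finset ι).toList.map
    (fun j => (⟨O j, hpm j, χ j⟩ : PadicPoint p T)), ?_, ?_⟩
  · intro n
    obtain ⟨n', hn'⟩ := hstrict n
    refine ⟨n', fun t ht => ?_⟩
    apply hn'
    intro j
    exact ht ⟨O j, hpm j, χ j⟩ (List.mem_map.mpr ⟨j, by simp, rfl⟩)
  · intro P hP
    obtain ⟨j, -, rfl⟩ := List.mem_map.mp hP
    exact hloc j

end Statement

end Fermat.Agent.S59.G4.H109
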