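import Mathlib
import Fermat.Agent.S31.H202.MatOrth

/-!
# Row S59, layer G4, piece RES2 — linear algebra core (helper109)

For a family `B : Fin 2 × Fin 2 → M₂(R)` of four `2 × 2` matrices we compare

* the coefficient matrix `coeffMat B` (rows = the matrices, flattened) and
* the Gram matrix `gramMat B = (tr (B a * B c))` of the trace form.

`gramMat B = coeffMat B * (coeffMat B with columns swapped)ᵀ`, hence `det (gramMat B)` is a unit
iff `det (coeffMat B)` is.  The Gram matrix only depends on the traces, so "the four matrices form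
a basis of `M₂`" is a property of the trace function alone.  A family of endomorphisms of a
2-dimensional space containing such a basis has no nontrivial invariant subspace.
-/

set_option autoImplicit false

namespace Fermat.Agent.S59.G4.H109

open Matrix

section Coeff

variable {R : Type*} [CommRing R]

/-- The coefficient matrix of a family of `2 × 2` matrices indexed by `Fin 2 × Fin 2`. -/
def coeffMat (B : Fin 2 × Fin 2 → Matrix (Fin 2) (Fin 2) R) :
    Matrix (Fin 2 × Fin 2) (Fin 2 × Fin 2) R :=
  Matrix.of fun a b => B a b.1 b.2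

/-- The Gram matrix of the trace form on a family of `2 × 2` matrices. -/
def gramMat (B : Fin 2 × Fin 2 → Matrix (Fin 2) (Fin 2) R) :
    Matrix (Fin 2 × Fin 2) (Fin 2 × Fin 2) R :=
  Matrix.of fun a c => Matrix.trace (B a * B c)

theorem gramMat_eq (B : Fin 2 × Fin 2 → Matrix (Fin 2) (Fin 2) R) :
    gramMat B = coeffMat B * ((coeffMat B).submatrix id (Equiv.prodComm (Fin 2) (Fin 2)))ᵀ := by
  ext a c
  simp only [gramMat, coeffMat, Matrix.of_apply, Matrix.trace, Matrix.diag, Matrix.mul_apply,
    Matrix.transpose_apply, Matrix.submatrix_apply, id_eq, Equiv.prodComm_apply, Prod.fst_swap,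
    Prod.snd_swap]
  rw [Fintype.sum_prod_type]

theorem det_gramMat (B : Fin 2 × Fin 2 → Matrix (Fin 2) (Fin 2) R) :
    (gramMat B).det
      = ((Equiv.Perm.sign (Equiv.prodComm (Fin 2) (Fin 2)) : ℤˣ) : ℤ) *
        ((coeffMat B).det * (coeffMat B).det) := by
  rw [gramMat_eq, Matrix.det_mul, Matrix.det_transpose, Matrix.det_permute']
  ring

theorem isUnit_det_coeffMat_iff (B : Fin 2 × Fin 2 → Matrix (Fin 2) (Fin 2) R) :
    IsUnit (coeffMat B).det ↔ IsUnit (gramMat B).det := by
  rw [det_gramMat]
  have hu : IsUnit (((Equiv.Perm.sign (Equiv.prodComm (Fin 2) (Fin 2)) : ℤˣ) : ℤ) : R) :=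
    ((Equiv.Perm.sign (Equiv.prodComm (Fin 2) (Fin 2))).isUnit.map (Int.castRingHom R))
  constructor
  · intro h
    exact hu.mul (h.mul h)
  · intro h
    have h2 : IsUnit ((coeffMat B).det * (coeffMat B).det) := (IsUnit.mul_iff.mp h).2
    exact (IsUnit.mul_iff.mp h2).1

/-- The Gram matrix commutes with ring homomorphisms. -/
theorem gramMat_map {R' : Type*} [CommRing R'] (φ : R →+* R')
    (B : Fin 2 × Fin 2 → Matrix (Fin 2) (Fin 2) R) :
    gramMat (fun a => (B a).map φ) = (gramMat B).map φ := by
  ext a c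
  simp only [gramMat, Matrix.of_apply, Matrix.map_apply]
  rw [← Matrix.map_mul, Matrix.trace, Matrix.trace]
  simp only [Matrix.diag_apply, Matrix.map_apply, map_sum]

theorem coeffMat_map {R' : Type*} [CommRing R'] (φ : R →+* R')
    (B : Fin 2 × Fin 2 → Matrix (Fin 2) (Fin 2) R) :
    coeffMat (fun a => (B a).map φ) = (coeffMat B).map φ := by
  ext a c
  simp only [coeffMat, Matrix.of_apply, Matrix.map_apply]

/-- If the coefficient matrix of `B` is invertible, the four matrices `B a` span `M₂(R)`. -/
theorem mem_span_range_of_isUnit (B : Fin 2 × Fin 2 → Matrix (Fin 2) (Fin 2) R)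
    (h : IsUnit (coeffMat B).det) (M : Matrix (Fin 2) (Fin 2) R) :
    ∃ c : Fin 2 × Fin 2 → R, M = ∑ a, c a • B a := by
  classical
  have hP : IsUnit (coeffMat B) := (Matrix.isUnit_iff_isUnit_det _).mpr h
  obtain ⟨u, hu⟩ := hP
  set Q : Matrix (Fin 2 × Fin 2) (Fin 2 × Fin 2) R := ↑(u⁻¹) with hQ
  have hQP : Q * coeffMat B = 1 := by
    rw [hQ, ← hu]
    exact Units.inv_mul u
  set m : Fin 2 × Fin 2 → R := fun b => M b.1 b.2 with hm
  refine ⟨m ᵥ* Q, ?_⟩
  ext i j
  have h1 : (m ᵥ* Q) ᵥ* coeffMat B = m := by
    rw [Matrix.vecMul_vecMul, hQP, Matrix.vecMul_one]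
  have h2 := congrFun h1 (i, j)
  simp only [Matrix.vecMul, dotProduct, coeffMat, Matrix.of_apply, hm] at h2
  rw [Matrix.sum_apply]
  simp only [Matrix.smul_apply, smul_eq_mul]
  exact h2.symm

end Coeff

section Irr

variable {K : Type*} [Field K] {V : Type*} [AddCommGroup V] [Module K V]

/-- A family of endomorphisms of a 2-dimensional space which contains four elements with
invertible coefficient matrix has no nontrivial invariant subspace. -/
theorem eq_bot_or_eq_top_of_isUnit (b : Module.Basis (Fin 2) K V) {G : Type*}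
    (r : G → Module.End K V) (f : Fin 2 × Fin 2 → G)
    (hP : IsUnit (coeffMat fun a => LinearMap.toMatrix b b (r (f a))).det)
    (W : Submodule K V) (hW : ∀ g, ∀ x ∈ W, r g x ∈ W) : W = ⊥ ∨ W = ⊤ := by
  classical
  -- every endomorphism preserves `W`
  have hall : ∀ T : Module.End K V, ∀ x ∈ W, T x ∈ W := by
    intro T x hx
    obtain ⟨c, hc⟩ := mem_span_range_of_isUnit _ hP (LinearMap.toMatrix b b T)
    have hT : T = ∑ a, c a • r (f a) := by
      apply (LinearMap.toMatrix b b).injective
      rw [hc, map_sum]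
      refine Finset.sum_congr rfl fun a _ => ?_
      rw [map_smul]
    rw [hT, LinearMap.sum_apply]
    refine Submodule.sum_mem _ fun a _ => ?_
    rw [LinearMap.smul_apply]
    exact W.smul_mem _ (hW (f a) x hx)
  by_cases hbot : W = ⊥
  · exact Or.inl hbot
  right
  obtain ⟨w, hwW, hw0⟩ := (Submodule.ne_bot_iff W).mp hbot
  -- a coordinate of `w` is nonzero
  obtain ⟨i, hi⟩ : ∃ i, b.repr w i ≠ 0 := by
    by_contra hcon
    apply hw0
    apply b.repr.injective
    ext i
    rw [map_zero, Finsupp.zero_apply]
    by_contra hi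
    exact hcon ⟨i, hi⟩
  rw [eq_top_iff]
  intro v _
  have h := hall ((b.coord i).smulRight v) w hwW
  rw [LinearMap.smulRight_apply, Module.Basis.coord_apply] at h
  have := W.smul_mem (b.repr w i)⁻¹ h
  rwa [smul_smul, inv_mul_cancel₀ hi, one_smul] at this

/-- The trace of an endomorphism of a 2-dimensional space from its characteristic polynomial. -/
theorem trace_eq_neg_coeff_charpoly [Module.Finite K V] [Module.Free K V]
    (b : Module.Basis (Fin 2) K V) (T : Module.End K V) :
    LinearMap.trace K V T = - (LinearMap.charpoly T).coeff 1 := by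
  classical
  rw [LinearMap.trace_eq_matrix_trace K b, Matrix.trace_eq_neg_charpoly_coeff,
    LinearMap.charpoly_toMatrix]
  simp

end Irr

end Fermat.Agent.S59.G4.H109
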