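import Fermat.Agent.S59.G4.Spec2
import Fermat.Agent.S59.G4.H109.Res2Alg
import Fermat.Agent.Lib.Cheb.Chebotarev
import Fermat.Agent.S29.H872.Burnside

/-!
# Row S59, layer G4 — piece RES2 (helper109)

`resStatement2 : Fermat.Agent.S59.G4.ResStatement2` (exact `Prop` of `G4/Spec2.lean`).

Let `θ : 𝕋 → k` be non-Eisenstein, witnessed by an absolutely irreducible `ρ̄` over `k`, and let
`ρ` be a representation over a local ring `A` whose Frobenius characteristic polynomials are given
by `φ : 𝕋 → A`, `φ ≡ ι ∘ θ` modulo the maximal ideal (`ι : k → κ = A / 𝔪`).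

1. (Chebotarev, `Lib.Cheb.chebotarev`)  on the compositum of the finite levels of `ρ.residual` and
   `ρ̄` every `g` agrees with a Frobenius element at a prime `ℓ ∉ S`, `ℓ ∤ N`; hence
   `charpoly (ρ.residual g) = (charpoly (ρ̄ g)).map ι` for all `g` (`charpoly_residual_eq`).
2. (Burnside)  there are `g₁, …, g₄` such that the `ρ̄ (gᵢ)` form a basis of `End(V̄)`
   (`exists_isUnit_coeffMat_of_absIrr`); equivalently the Gram matrix `tr ρ̄ (gᵢ gⱼ)` is invertible.
3. The Gram matrix of `ρ.residual (gᵢ)` is the image under `ι` of that of `ρ̄ (gᵢ)`, hence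
   invertible; so the `ρ.residual (gᵢ)` form a basis of `End`, over `κ` and over `κ̄`, and there is
   no nontrivial invariant subspace.

(The hypothesis `2 ≠ 0` of the statement is not needed.)
-/

set_option autoImplicit false

open Polynomial IsLocalRing
open scoped TensorProduct

namespace Fermat.Agent.S59.G4.H109

open Fermat.Agent.S31 Fermat.Agent.S59.G4

/-- **Burnside, basis form.**  An absolutely irreducible residual representation contains four
elements whose matrices form a basis of `M₂(k)`. -/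
theorem exists_isUnit_coeffMat_of_absIrr {k : Type} [Field k] (ρbar : ResidualGaloisRep k)
    (habs : ρbar.IsAbsolutelyIrreducible) (b : Module.Basis (Fin 2) k ρbar.V) :
    ∃ f : Fin 2 × Fin 2 → GQ,
      IsUnit (coeffMat fun a => LinearMap.toMatrix b b (ρbar.ρ (f a))).det := by
  classical
  set K := AlgebraicClosure k with hK
  set bK : Module.Basis (Fin 2) K (K ⊗[k] ρbar.V) := Algebra.TensorProduct.basis K b with hbK
  set ρK : GQ →* Module.End K (K ⊗[k] ρbar.V) := (ρbar.baseChange K).ρ with hρK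
  have hF : ∀ g, (LinearMap.toMatrix b b (ρbar.ρ g)).map (algebraMap k K)
      = LinearMap.toMatrix bK bK (ρK g) := by
    intro g
    have h1 : ρK g = (ρbar.ρ g).baseChange K := rfl
    rw [h1, LinearMap.toMatrix_baseChange]
  have hnt : Nontrivial (K ⊗[k] ρbar.V) := by
    apply Module.nontrivial_of_finrank_pos (R := K)
    have h2 : Module.finrank K (K ⊗[k] ρbar.V) = 2 := (ρbar.baseChange K).finrank_eq
    rw [h2]
    norm_num
  have hB : Algebra.adjoin K (Set.range ρK) = ⊤ := by
    apply Fermat.Agent.S29.H872.burnside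
    intro W hW
    refine habs W (fun σ x hx => ?_)
    exact hW (ρK σ) (Algebra.subset_adjoin ⟨σ, rfl⟩) hx
  have hspanK : Submodule.span K (Set.range ρK) = ⊤ := by
    have h1 := Algebra.adjoin_eq_span K (Set.range ρK)
    have h2 : (Submonoid.closure (Set.range ρK) : Set (Module.End K (K ⊗[k] ρbar.V)))
        = Set.range ρK := by
      have : Submonoid.closure (Set.range ρK) = MonoidHom.mrange ρK := by
        rw [← MonoidHom.coe_mrange, Submonoid.closure_eq]
      rw [this, MonoidHom.coe_mrange]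
    rw [h2, hB] at h1
    rw [← h1]
    rfl
  have hrange : (Set.range fun g => (LinearMap.toMatrix b b (ρbar.ρ g)).map (algebraMap k K))
      = (LinearMap.toMatrix bK bK) '' (Set.range ρK) := by
    ext M
    constructor
    · rintro ⟨g, rfl⟩
      exact ⟨ρK g, ⟨g, rfl⟩, (hF g).symm⟩
    · rintro ⟨_, ⟨g, rfl⟩, rfl⟩
      exact ⟨g, hF g⟩
  have hmap : Submodule.map ((LinearMap.toMatrix bK bK).toLinearMap)
      (Submodule.span K (Set.range ρK))
      = Submodule.span K ((LinearMap.toMatrix bK bK) '' (Set.range ρK)) :=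
    Submodule.map_span _ _
  have hspan : Submodule.span K
      (Set.range fun g => (LinearMap.toMatrix b b (ρbar.ρ g)).map (algebraMap k K)) = ⊤ := by
    rw [hrange, ← hmap, hspanK, Submodule.map_top, LinearMap.range_eq_top]
    exact (LinearMap.toMatrix bK bK).surjective
  have hr : ∀ a ∈ IsLocalRing.maximalIdeal k, algebraMap k K a = 0 := by
    intro a ha
    rw [IsLocalRing.maximalIdeal_eq_bot, Ideal.mem_bot] at ha
    rw [ha, map_zero]
  obtain ⟨f, hf⟩ := Fermat.Agent.S31.H202.exists_invertible_coeff (algebraMap k K) hr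
    (fun g => LinearMap.toMatrix b b (ρbar.ρ g)) hspan
  exact ⟨f, (Matrix.isUnit_iff_isUnit_det _).mp hf⟩

/-- **Chebotarev step.**  The characteristic polynomials of `ρ.residual` are the images of those
of `ρ̄`, at every element of `Gal(ℚ̄/ℚ)`. -/
theorem charpoly_residual_eq {N : ℕ} [NeZero N] (S : Finset ℕ) {k : Type} [Field k]
    (θ : CuspForm.heckeAlgebra N 2 (↑S : Set ℕ) →+* k) (ρbar : ResidualGaloisRep k)
    (hρbar : ResFrobCond ρbar θ)
    {A : Type} [CommRing A] [IsLocalRing A] (ι : k →+* ResidueField A)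
    (φ : CuspForm.heckeAlgebra N 2 (↑S : Set ℕ) →+* A)
    (hφ : ∀ t, residue A (φ t) = ι (θ t))
    (ρ : GaloisRepAdic A) (hρ : FrobCond ρ φ) (g : GQ) :
    LinearMap.charpoly (ρ.residual.ρ g) = (LinearMap.charpoly (ρbar.ρ g)).map ι := by
  obtain ⟨L₁, hL₁, h₁⟩ := ρ.residual.factorsThroughFiniteLevel
  obtain ⟨L₂, hL₂, h₂⟩ := ρbar.factorsThroughFiniteLevel
  have := hL₁
  have := hL₂
  have hE : FiniteDimensional ℚ ↥(L₁ ⊔ L₂) := IntermediateField.finiteDimensional_sup L₁ L₂
  obtain ⟨ℓ, B, τ, hℓ, hℓS, hB, hτ, -, hτg⟩ :=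
    Fermat.Agent.Lib.Cheb.chebotarev (L₁ ⊔ L₂) hE g (S ∪ N.primeFactors)
  have hℓS' : ℓ ∉ (↑S : Set ℕ) := fun h => hℓS (Finset.mem_union_left _ h)
  have hℓN : ¬ ℓ ∣ N := fun h =>
    hℓS (Finset.mem_union_right _ (Nat.mem_primeFactors.mpr ⟨hℓ, h, NeZero.ne N⟩))
  have hfix : ∀ x ∈ L₁ ⊔ L₂, (g⁻¹ * τ) x = x := by
    intro x hx
    rw [AlgEquiv.mul_apply, hτg x hx]
    exact g.symm_apply_apply x
  have e1 : ρ.residual.ρ τ = ρ.residual.ρ g := by
    have h := h₁ (g⁻¹ * τ) (fun x hx => hfix x ((le_sup_left : L₁ ≤ L₁ ⊔ L₂) hx))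
    have h' : ρ.residual.ρ g * ρ.residual.ρ (g⁻¹ * τ) = ρ.residual.ρ g := by rw [h, mul_one]
    rw [← map_mul, mul_inv_cancel_left] at h'
    exact h'
  have e2 : ρbar.ρ τ = ρbar.ρ g := by
    have h := h₂ (g⁻¹ * τ) (fun x hx => hfix x ((le_sup_right : L₂ ≤ L₁ ⊔ L₂) hx))
    have h' : ρbar.ρ g * ρbar.ρ (g⁻¹ * τ) = ρbar.ρ g := by rw [h, mul_one]
    rw [← map_mul, mul_inv_cancel_left] at h'
    exact h'
  have c1 := hρ ℓ hℓ hℓN hℓS' B hB τ hτ
  have c2 := hρbar ℓ hℓ hℓN hℓS' B hB τ hτ
  rw [← e1, ← e2, c2]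
  have hres : LinearMap.charpoly (ρ.residual.ρ τ)
      = LinearMap.charpoly ((ρ.ρ τ).baseChange (ResidueField A)) := rfl
  rw [hres, LinearMap.charpoly_baseChange, c1]
  simp only [Polynomial.map_add, Polynomial.map_sub, Polynomial.map_mul, Polynomial.map_pow,
    Polynomial.map_X, Polynomial.map_C, map_natCast]
  rw [IsLocalRing.ResidueField.algebraMap_eq, hφ, Polynomial.map_natCast,
    Polynomial.map_natCast]

/-- **RES2.** -/
theorem resStatement2 : ResStatement2 := by
  intro N _ S k _ _h2 θ hθ A _ _ ι φ hφ ρ hρ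
  obtain ⟨ρbar, habs, hρbar⟩ := hθ
  classical
  let b₁ : Module.Basis (Fin 2) k ρbar.V := Module.finBasisOfFinrankEq k ρbar.V ρbar.finrank_eq
  let b₂ : Module.Basis (Fin 2) (ResidueField A) ρ.residual.V :=
    Module.finBasisOfFinrankEq (ResidueField A) ρ.residual.V ρ.residual.finrank_eq
  obtain ⟨f, hf⟩ := exists_isUnit_coeffMat_of_absIrr ρbar habs b₁
  have htr : ∀ g : GQ, LinearMap.trace (ResidueField A) ρ.residual.V (ρ.residual.ρ g)
      = ι (LinearMap.trace k ρbar.V (ρbar.ρ g)) := by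
    intro g
    rw [trace_eq_neg_coeff_charpoly b₂, trace_eq_neg_coeff_charpoly b₁,
      charpoly_residual_eq S θ ρbar hρbar ι φ hφ ρ hρ g, Polynomial.coeff_map, map_neg]
  have hgram : gramMat (fun a => LinearMap.toMatrix b₂ b₂ (ρ.residual.ρ (f a)))
      = (gramMat (fun a => LinearMap.toMatrix b₁ b₁ (ρbar.ρ (f a)))).map ι := by
    ext a c
    simp only [gramMat, Matrix.of_apply, Matrix.map_apply]
    rw [← LinearMap.toMatrix_mul, ← LinearMap.toMatrix_mul, ← LinearMap.trace_eq_matrix_trace,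
      ← LinearMap.trace_eq_matrix_trace, ← map_mul, ← map_mul, htr]
  have hP₂ : IsUnit (coeffMat fun a => LinearMap.toMatrix b₂ b₂ (ρ.residual.ρ (f a))).det := by
    rw [isUnit_det_coeffMat_iff, hgram, ← RingHom.mapMatrix_apply, ← RingHom.map_det]
    exact ((isUnit_det_coeffMat_iff _).mp hf).map ι
  refine ⟨?_, ?_⟩
  · -- absolutely irreducible
    intro W hW
    set Ω := AlgebraicClosure (ResidueField A) with hΩ
    let bΩ : Module.Basis (Fin 2) Ω (Ω ⊗[ResidueField A] ρ.residual.V) :=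
      Algebra.TensorProduct.basis Ω b₂
    have hmat : ∀ g, LinearMap.toMatrix bΩ bΩ ((ρ.residual.baseChange Ω).ρ g)
        = (LinearMap.toMatrix b₂ b₂ (ρ.residual.ρ g)).map (algebraMap (ResidueField A) Ω) := by
      intro g
      have h1 : (ρ.residual.baseChange Ω).ρ g = (ρ.residual.ρ g).baseChange Ω := rfl
      rw [h1, LinearMap.toMatrix_baseChange]
    have hPΩ : IsUnit (coeffMat fun a =>
        LinearMap.toMatrix bΩ bΩ ((ρ.residual.baseChange Ω).ρ (f a))).det := by
      have : (coeffMat fun a => LinearMap.toMatrix bΩ bΩ ((ρ.residual.baseChange Ω).ρ (f a)))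
          = (coeffMat fun a => LinearMap.toMatrix b₂ b₂ (ρ.residual.ρ (f a))).map
              (algebraMap (ResidueField A) Ω) := by
        rw [← coeffMat_map]
        congr 1
        funext a
        exact hmat (f a)
      rw [this, ← RingHom.mapMatrix_apply, ← RingHom.map_det]
      exact hP₂.map _
    exact eq_bot_or_eq_top_of_isUnit bΩ (fun g => (ρ.residual.baseChange Ω).ρ g) f hPΩ W hW
  · intro W hW
    exact eq_bot_or_eq_top_of_isUnit b₂ (fun g => ρ.residual.ρ g) f hP₂ W hW

end Fermat.Agent.S59.G4.H109
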