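import Fermat.Agent.S59.G4.H109.PointsDVR

/-!
# Row S59, layer G4, piece POINTS — part 2 (helper109)

Joint strictness of a separating family of points.  `𝒪` is a complete DVR of characteristic zero
with fraction field `K` and uniformiser `ϖ`, `T` a finite free `𝒪`-algebra, `E = K ⊗[𝒪] T`, `L j`
a finite family of finite field extensions of `K` and `Φ : E →ₐ[K] Π j, L j` injective.  Then the
points `T → integralClosure 𝒪 (L j)` are jointly strict: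
for every `n` there is `m` such that `χ_j t ∈ 𝔪_j ^ m` for all `j` implies `t ∈ ϖ ^ n T`.
(Port of `S31/H262/Strict.lean` (helper262) from `ℤ_[p]` to a general `𝒪`.)
-/

set_option autoImplicit false
set_option linter.unusedSectionVars false
set_option linter.style.haveILetI false

noncomputable section

namespace Fermat.Agent.S59.G4.H109

open scoped TensorProduct
open IsLocalRing

section Lattice

variable (𝒪 : Type) [CommRing 𝒪] [IsDomain 𝒪] [IsDiscreteValuationRing 𝒪]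
variable (K : Type) [Field K] [Algebra 𝒪 K] [IsFractionRing 𝒪 K]
variable (T : Type) [CommRing T] [Algebra 𝒪 T]

/-- The `𝒪`-lattice in `E = K ⊗[𝒪] T` spanned by the pure tensors `1 ⊗ t`. -/
def latO : Submodule 𝒪 (K ⊗[𝒪] T) :=
  Submodule.span 𝒪 (Set.range fun t : T => (1 : K) ⊗ₜ[𝒪] t)

theorem one_tmul_mem_latO (t : T) : (1 : K) ⊗ₜ[𝒪] t ∈ latO 𝒪 K T :=
  Submodule.subset_span ⟨t, rfl⟩

theorem algebraMap_tmul_mem_latO (a : 𝒪) (t : T) :
    (algebraMap 𝒪 K a) ⊗ₜ[𝒪] t ∈ latO 𝒪 K T := by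
  have h : (algebraMap 𝒪 K a) ⊗ₜ[𝒪] t = a • ((1 : K) ⊗ₜ[𝒪] t) := by
    rw [TensorProduct.smul_tmul', Algebra.smul_def, mul_one]
  rw [h]
  exact (latO 𝒪 K T).smul_mem a (one_tmul_mem_latO 𝒪 K T t)

variable {𝒪} in
/-- Every element of `K` becomes integral after multiplication by a power of `ϖ`. -/
theorem exists_pow_mul_mem_O {ϖ : 𝒪} (hϖ : Irreducible ϖ) (x : K) :
    ∃ (c : ℕ) (a : 𝒪), algebraMap 𝒪 K ϖ ^ c * x = algebraMap 𝒪 K a := by
  obtain ⟨a, s, hs, rfl⟩ := IsFractionRing.div_surjective (A := 𝒪) x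
  have hs0 : s ≠ 0 := nonZeroDivisors.ne_zero hs
  obtain ⟨c, u, hu⟩ := IsDiscreteValuationRing.eq_unit_mul_pow_irreducible hs0 hϖ
  refine ⟨c, a * ((u⁻¹ : 𝒪ˣ) : 𝒪), ?_⟩
  have hsK : algebraMap 𝒪 K s ≠ 0 := by
    intro h
    exact hs0 (IsFractionRing.injective 𝒪 K (by rw [h, map_zero]))
  rw [← mul_div_assoc, div_eq_iff hsK, ← map_pow, ← map_mul, ← map_mul]
  congr 1
  rw [hu]
  have hu1 : ((u⁻¹ : 𝒪ˣ) : 𝒪) * (u : 𝒪) = 1 := Units.inv_mul u
  calc ϖ ^ c * a = a * (((u⁻¹ : 𝒪ˣ) : 𝒪) * (u : 𝒪)) * ϖ ^ c := by rw [hu1]; ring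
    _ = a * ((u⁻¹ : 𝒪ˣ) : 𝒪) * ((u : 𝒪) * ϖ ^ c) := by ring

variable {𝒪} in
/-- Every element of `E` lies in the lattice after multiplication by a power of `ϖ`. -/
theorem exists_pow_smul_mem_latO {ϖ : 𝒪} (hϖ : Irreducible ϖ) (e : K ⊗[𝒪] T) :
    ∃ c : ℕ, ∀ c' : ℕ, c ≤ c' → (algebraMap 𝒪 K ϖ ^ c') • e ∈ latO 𝒪 K T := by
  induction e using TensorProduct.induction_on with
  | zero => exact ⟨0, fun c' _ => by rw [smul_zero]; exact (latO 𝒪 K T).zero_mem⟩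
  | tmul x b =>
    obtain ⟨c, a, hca⟩ := exists_pow_mul_mem_O K hϖ x
    refine ⟨c, fun c' hc' => ?_⟩
    obtain ⟨d, rfl⟩ := Nat.exists_eq_add_of_le hc'
    have h : (algebraMap 𝒪 K ϖ ^ (c + d)) • (x ⊗ₜ[𝒪] b) =
        (algebraMap 𝒪 K (ϖ ^ d * a)) ⊗ₜ[𝒪] b := by
      rw [TensorProduct.smul_tmul', smul_eq_mul, pow_add, mul_comm (algebraMap 𝒪 K ϖ ^ c),
        mul_assoc, hca, map_mul, map_pow]
    rw [h]
    exact algebraMap_tmul_mem_latO 𝒪 K T _ b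
  | add x y hx hy =>
    obtain ⟨c1, h1⟩ := hx
    obtain ⟨c2, h2⟩ := hy
    refine ⟨max c1 c2, fun c' hc' => ?_⟩
    rw [smul_add]
    exact (latO 𝒪 K T).add_mem (h1 c' (le_trans (le_max_left _ _) hc'))
      (h2 c' (le_trans (le_max_right _ _) hc'))

end Lattice

section Coordinates

variable (𝒪 : Type) [CommRing 𝒪] [IsDomain 𝒪] [IsDiscreteValuationRing 𝒪]
variable (K : Type) [Field K] [Algebra 𝒪 K] [IsFractionRing 𝒪 K]
variable (T : Type) [CommRing T] [Algebra 𝒪 T] [Module.Finite 𝒪 T] [Module.Free 𝒪 T]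

/-- Coordinates lemma: if `ϖ⁻ⁿ • (1 ⊗ t)` lies in the lattice, then `t ∈ ϖⁿ T`. -/
theorem mem_span_of_inv_smul_mem_latO (ϖ : 𝒪) (hϖ : ϖ ≠ 0) (n : ℕ) (t : T)
    (h : ((algebraMap 𝒪 K ϖ ^ n)⁻¹) • ((1 : K) ⊗ₜ[𝒪] t) ∈ latO 𝒪 K T) :
    t ∈ Ideal.span {algebraMap 𝒪 T ϖ ^ n} := by
  classical
  set b := Module.Free.chooseBasis 𝒪 T with hb
  set bE := Algebra.TensorProduct.basis K b with hbE
  -- the lattice is contained in the `𝒪`-span of the basis
  have hle : latO 𝒪 K T ≤ Submodule.span 𝒪 (Set.range bE) := by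
    unfold latO
    rw [Submodule.span_le]
    rintro _ ⟨x, rfl⟩
    rw [SetLike.mem_coe, Module.Basis.mem_span_iff_repr_mem]
    intro i
    refine ⟨b.repr x i, ?_⟩
    rw [hbE, Algebra.TensorProduct.basis_repr_tmul]
    simp
  have h' := hle h
  rw [Module.Basis.mem_span_iff_repr_mem] at h'
  have hϖK : algebraMap 𝒪 K ϖ ^ n ≠ 0 := by
    apply pow_ne_zero
    intro h0
    exact hϖ (IsFractionRing.injective 𝒪 K (by rw [h0, map_zero]))
  -- each coordinate of `t` is divisible by `ϖ ^ n`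
  have hdvd : ∀ i, (ϖ ^ n) ∣ b.repr t i := by
    intro i
    obtain ⟨a, ha⟩ := h' i
    rw [hbE, map_smul, Algebra.TensorProduct.basis_repr_tmul] at ha
    simp only [one_smul, Finsupp.smul_apply, Finsupp.mapRange_apply, smul_eq_mul] at ha
    have hval : algebraMap 𝒪 K (b.repr t i) = algebraMap 𝒪 K (ϖ ^ n * a) := by
      rw [map_mul, map_pow, ha]
      field_simp
    exact ⟨a, IsFractionRing.injective 𝒪 K hval⟩
  rw [Ideal.mem_span_singleton, ← b.sum_repr t]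
  refine Finset.dvd_sum fun i _ => ?_
  obtain ⟨k, hk⟩ := hdvd i
  rw [hk, mul_smul]
  refine Dvd.intro (k • b i) ?_
  rw [← map_pow, ← Algebra.smul_def]

end Coordinates

section Strict

variable (𝒪 : Type) [CommRing 𝒪] [IsDomain 𝒪] [IsDiscreteValuationRing 𝒪]
  [IsAdicComplete (maximalIdeal 𝒪) 𝒪] [CharZero 𝒪]
variable (K : Type) [Field K] [Algebra 𝒪 K] [IsFractionRing 𝒪 K]
variable (T : Type) [CommRing T] [Algebra 𝒪 T] [Module.Finite 𝒪 T] [Module.Free 𝒪 T]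
variable {ι : Type} [Finite ι] (L : ι → Type) [∀ j, Field (L j)] [∀ j, Algebra K (L j)]
  [∀ j, Algebra 𝒪 (L j)] [∀ j, IsScalarTower 𝒪 K (L j)]
  [∀ j, FiniteDimensional K (L j)]
variable (Φ : (K ⊗[𝒪] T) →ₐ[K] (∀ j, L j))

/-- The `j`-th point, with values in the field `L j`. -/
def ptL (j : ι) : T →+* L j :=
  (Pi.evalRingHom L j).comp
    ((Φ : (K ⊗[𝒪] T) →+* (∀ j, L j)).comp
      (Algebra.TensorProduct.includeRight : T →ₐ[𝒪] K ⊗[𝒪] T).toRingHom)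

theorem ptL_apply (j : ι) (t : T) : ptL 𝒪 K T L Φ j t = Φ ((1 : K) ⊗ₜ[𝒪] t) j := rfl

theorem ptL_algebraMap (j : ι) (a : 𝒪) :
    ptL 𝒪 K T L Φ j (algebraMap 𝒪 T a) = algebraMap 𝒪 (L j) a := by
  rw [ptL_apply]
  have h1 : (1 : K) ⊗ₜ[𝒪] (algebraMap 𝒪 T a) = algebraMap K (K ⊗[𝒪] T) (algebraMap 𝒪 K a) := by
    rw [Algebra.TensorProduct.algebraMap_apply, Algebra.algebraMap_eq_smul_one a,
      ← TensorProduct.smul_tmul, Algebra.smul_def, mul_one]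
    rfl
  rw [h1, AlgHom.commutes, Pi.algebraMap_apply, ← IsScalarTower.algebraMap_apply]

/-- The `j`-th point as an `𝒪`-algebra homomorphism. -/
def ptLAlg (j : ι) : T →ₐ[𝒪] L j :=
  { ptL 𝒪 K T L Φ j with commutes' := ptL_algebraMap 𝒪 K T L Φ j }

theorem isIntegral_ptL (j : ι) (t : T) : IsIntegral 𝒪 (ptL 𝒪 K T L Φ j t) := by
  have h1 : IsIntegral 𝒪 t := Algebra.IsIntegral.isIntegral (R := 𝒪) t
  exact h1.map (ptLAlg 𝒪 K T L Φ j)

/-- The `j`-th point, with values in the ring of integers of `L j`. -/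
def pt (j : ι) : T →+* intRingO 𝒪 (L j) where
  toFun t := ⟨ptL 𝒪 K T L Φ j t, isIntegral_ptL 𝒪 K T L Φ j t⟩
  map_one' := Subtype.ext (map_one _)
  map_mul' x y := Subtype.ext (map_mul _ x y)
  map_zero' := Subtype.ext (map_zero _)
  map_add' x y := Subtype.ext (map_add _ x y)

theorem coe_pt (j : ι) (t : T) :
    ((pt 𝒪 K T L Φ j t : intRingO 𝒪 (L j)) : L j) = Φ ((1 : K) ⊗ₜ[𝒪] t) j := rfl

theorem pt_algebraMap (j : ι) (a : 𝒪) :
    pt 𝒪 K T L Φ j (algebraMap 𝒪 T a) = algebraMap 𝒪 (intRingO 𝒪 (L j)) a :=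
  Subtype.ext (ptL_algebraMap 𝒪 K T L Φ j a)

/-- The `𝒪`-submodule of `E` of elements all of whose components are integral. -/
def intSub : Submodule 𝒪 (K ⊗[𝒪] T) :=
  Submodule.comap (Φ.toLinearMap.restrictScalars 𝒪)
    (Submodule.pi Set.univ fun j => Subalgebra.toSubmodule (intRingO 𝒪 (L j)))

theorem mem_intSub (e : K ⊗[𝒪] T) :
    e ∈ intSub 𝒪 K T L Φ ↔ ∀ j, IsIntegral 𝒪 (Φ e j) := by
  unfold intSub
  rw [Submodule.mem_comap, Submodule.mem_pi]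
  constructor
  · intro h j
    exact h j (Set.mem_univ j)
  · intro h j _
    exact h j

/-- The comparison map from `intSub` to the product of the rings of integers. -/
def intSubToPi : intSub 𝒪 K T L Φ →ₗ[𝒪] (∀ j, intRingO 𝒪 (L j)) where
  toFun w := fun j => ⟨Φ w.1 j, (mem_intSub 𝒪 K T L Φ w.1).mp w.2 j⟩
  map_add' x y := by
    funext j
    apply Subtype.ext
    simp
  map_smul' a x := by
    funext j
    apply Subtype.ext
    have h : Φ (a • (x : K ⊗[𝒪] T)) = a • Φ (x : K ⊗[𝒪] T) :=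
      (Φ.toLinearMap.restrictScalars 𝒪).map_smul a x.1
    simp [h]

variable {𝒪 K T L Φ} in
theorem intSubToPi_injective (hΦ : Function.Injective Φ) :
    Function.Injective (intSubToPi 𝒪 K T L Φ) := by
  intro x y h
  apply Subtype.ext
  apply hΦ
  funext j
  have := congrArg (fun f : (∀ j, intRingO 𝒪 (L j)) => ((f j : intRingO 𝒪 (L j)) : L j)) h
  exact this

variable {𝒪 K T L Φ} in
theorem intSub_fg (hΦ : Function.Injective Φ) : (intSub 𝒪 K T L Φ).FG := by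
  haveI : Fintype ι := Fintype.ofFinite ι
  haveI : ∀ j, Module.Finite 𝒪 (intRingO 𝒪 (L j)) := fun j => intRingO_moduleFinite 𝒪 K (L j)
  haveI : Module.Finite 𝒪 (∀ j, intRingO 𝒪 (L j)) := Module.Finite.pi
  haveI : IsNoetherian 𝒪 (∀ j, intRingO 𝒪 (L j)) := inferInstance
  haveI : Module.Finite 𝒪 (intSub 𝒪 K T L Φ) :=
    Module.Finite.of_injective (intSubToPi 𝒪 K T L Φ) (intSubToPi_injective hΦ)
  exact (Submodule.fg_top _).mp (Module.finite_def.mp this)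

variable {𝒪 K T L Φ} in
/-- A uniform power of `ϖ` maps `intSub` into the lattice. -/
theorem exists_pow_smul_intSub_le (hΦ : Function.Injective Φ) {ϖ : 𝒪} (hϖ : Irreducible ϖ) :
    ∃ c : ℕ, ∀ w ∈ intSub 𝒪 K T L Φ, (algebraMap 𝒪 K ϖ ^ c) • w ∈ latO 𝒪 K T := by
  classical
  obtain ⟨G, hG⟩ := intSub_fg hΦ
  choose cf hcf using fun e : K ⊗[𝒪] T => exists_pow_smul_mem_latO K T hϖ e
  refine ⟨G.sup cf, fun w hw => ?_⟩
  have hsm : ∀ (c : ℕ) (g : K ⊗[𝒪] T), (ϖ ^ c) • g = (algebraMap 𝒪 K ϖ ^ c) • g := by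
    intro c g
    rw [← algebraMap_smul K (ϖ ^ c) g, map_pow]
  -- the set of `e` with `ϖ ^ c • e ∈ lat` is an `𝒪`-submodule containing the generators
  have hsub : intSub 𝒪 K T L Φ ≤
      Submodule.comap (LinearMap.lsmul 𝒪 (K ⊗[𝒪] T) (ϖ ^ G.sup cf)) (latO 𝒪 K T) := by
    rw [← hG, Submodule.span_le]
    intro g hg
    rw [SetLike.mem_coe, Submodule.mem_comap, LinearMap.lsmul_apply]
    have h1 := hcf g (G.sup cf) (Finset.le_sup (f := cf) hg)
    rw [hsm]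
    exact h1
  have h3 := hsub hw
  rw [Submodule.mem_comap, LinearMap.lsmul_apply] at h3
  rw [← hsm]
  exact h3

variable {𝒪 K T L Φ} in
/-- **Joint strictness** of the points `pt j : T → intRingO 𝒪 (L j)`. -/
theorem strict_of_injective [∀ j, IsLocalRing (intRingO 𝒪 (L j))]
    (hΦ : Function.Injective Φ) {ϖ : 𝒪} (hϖ : Irreducible ϖ) (n : ℕ) :
    ∃ m : ℕ, ∀ t : T,
      (∀ j, pt 𝒪 K T L Φ j t ∈ maximalIdeal (intRingO 𝒪 (L j)) ^ m) →
        t ∈ Ideal.span {algebraMap 𝒪 T ϖ ^ n} := by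
  classical
  haveI : Fintype ι := Fintype.ofFinite ι
  obtain ⟨c, hc⟩ := exists_pow_smul_intSub_le hΦ hϖ
  have hex : ∀ j : ι, ∃ m : ℕ, maximalIdeal (intRingO 𝒪 (L j)) ^ m
      ≤ Ideal.span {algebraMap 𝒪 (intRingO 𝒪 (L j)) ϖ ^ (n + c)} := by
    intro j
    have := exists_maximalIdeal_pow_le_span_pow 𝒪 K (L j) ϖ hϖ.ne_zero (n + c)
    convert this using 4
  choose mf hmf using hex
  refine ⟨Finset.univ.sup mf, fun t ht => ?_⟩
  have hp0 : algebraMap 𝒪 K ϖ ≠ 0 := by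
    intro h0
    exact hϖ.ne_zero (IsFractionRing.injective 𝒪 K (by rw [h0, map_zero]))
  apply mem_span_of_inv_smul_mem_latO 𝒪 K T ϖ hϖ.ne_zero n t
  -- the element `e = ϖ^{-(n+c)} • (1 ⊗ t)` has integral components
  have he : ((algebraMap 𝒪 K ϖ ^ (n + c))⁻¹) • ((1 : K) ⊗ₜ[𝒪] t) ∈ intSub 𝒪 K T L Φ := by
    rw [mem_intSub]
    intro j
    have h1 : pt 𝒪 K T L Φ j t ∈ Ideal.span {algebraMap 𝒪 (intRingO 𝒪 (L j)) ϖ ^ (n + c)} :=
      hmf j (Ideal.pow_le_pow_right (Finset.le_sup (f := mf) (Finset.mem_univ j)) (ht j))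
    rw [Ideal.mem_span_singleton] at h1
    obtain ⟨y, hy⟩ := h1
    have hy' : Φ ((1 : K) ⊗ₜ[𝒪] t) j = algebraMap 𝒪 (L j) ϖ ^ (n + c) * (y : L j) := by
      have := congrArg (fun x : intRingO 𝒪 (L j) => (x : L j)) hy
      simpa [coe_pt] using this
    have hpL : algebraMap 𝒪 (L j) ϖ ≠ 0 := by
      intro h0
      exact hϖ.ne_zero (algebraMap_O_L_injective 𝒪 K (L j) (by rw [h0, map_zero]))
    have hval : Φ (((algebraMap 𝒪 K ϖ ^ (n + c))⁻¹) • ((1 : K) ⊗ₜ[𝒪] t)) j = (y : L j) := by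
      rw [map_smul, Pi.smul_apply, hy', Algebra.smul_def, map_inv₀, map_pow,
        ← IsScalarTower.algebraMap_apply]
      field_simp
    rw [hval]
    exact y.2
  have h2 := hc _ he
  have h3 : (algebraMap 𝒪 K ϖ ^ c) • (((algebraMap 𝒪 K ϖ ^ (n + c))⁻¹) • ((1 : K) ⊗ₜ[𝒪] t)) =
      ((algebraMap 𝒪 K ϖ ^ n)⁻¹) • ((1 : K) ⊗ₜ[𝒪] t) := by
    rw [smul_smul]
    congr 1
    rw [pow_add]
    field_simp
  rw [h3] at h2
  exact h2

end Strict

end Fermat.Agent.S59.G4.H109
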